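import Mathlib
import Fermat.Prelude.Def_ModularCurve_JqCoeff
import Fermat.Agent.S24.JExp

/-!
# S16 / Three / Series: `q`-series congruences modulo `3` and `9`

`φ = ∑ σ₁(n) qⁿ`, `E₄ = 1 - 3φ mod 9`, `E₆ = 1 mod 9`, `Δ = φ - φ³ mod 3`, and the
Artin–Schreier identity `φ̄³ - φ̄ = -1/j̄` in `𝔽₃((q))`.
-/

set_option autoImplicit false

namespace Fermat.Agent.S16.Three.Series

open PowerSeries ModularCurve ModularForm EisensteinSeries UpperHalfPlane
open Fermat.Agent.S24.JExp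
open scoped ArithmeticFunction.sigma MatrixGroups

noncomputable section

/-! ### Formal divisor-sum series -/

/-- `∑ σ_k(n) qⁿ` as an integral power series. -/
def sigSer (k : ℕ) : PowerSeries ℤ := PowerSeries.mk fun n => ((σ k n : ℕ) : ℤ)

@[simp] theorem coeff_sigSer (k n : ℕ) : PowerSeries.coeff n (sigSer k) = ((σ k n : ℕ) : ℤ) :=
  PowerSeries.coeff_mk _ _

@[simp] theorem constantCoeff_sigSer (k : ℕ) : PowerSeries.constantCoeff (sigSer k) = 0 := by
  rw [← PowerSeries.coeff_zero_eq_constantCoeff, coeff_sigSer]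
  simp

/-- `φ = ∑ σ₁(n) qⁿ`. -/
def phiZ : PowerSeries ℤ := sigSer 1

theorem coeff_intCast_mul (c : ℤ) (f : PowerSeries ℤ) (n : ℕ) :
    PowerSeries.coeff n ((c : PowerSeries ℤ) * f) = c * PowerSeries.coeff n f := by
  rw [show (c : PowerSeries ℤ) = PowerSeries.C (c : ℤ) by simp, PowerSeries.coeff_C_mul]

theorem eisenstein4_eq : eisenstein4 = 1 + 240 * sigSer 3 := by
  ext n
  rw [eisenstein4, PowerSeries.coeff_mk]
  by_cases hn : n = 0
  · subst hn
    simp
  · rw [if_neg hn, map_add, PowerSeries.coeff_one, if_neg hn, zero_add]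
    have := coeff_intCast_mul 240 (sigSer 3) n
    push_cast at this
    rw [this, coeff_sigSer, ArithmeticFunction.sigma_apply]
    push_cast
    rfl

/-- The formal `E₆`. -/
def eisenstein6 : PowerSeries ℤ := 1 - 504 * sigSer 5

/-- The formal `E₈`. -/
def eisenstein8 : PowerSeries ℤ := 1 + 480 * sigSer 7

/-- The formal `Δ = q ∏ (1 - qⁿ)²⁴`. -/
def deltaZ : PowerSeries ℤ := PowerSeries.X * dedekindEtaUnit

/-- coefficient extension `ℤ[[q]] → ℂ[[q]]` -/
abbrev toC : PowerSeries ℤ →+* PowerSeries ℂ := PowerSeries.map (Int.castRingHom ℂ)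

theorem toC_injective : Function.Injective toC := by
  intro f g h
  ext n
  have := congrArg (PowerSeries.coeff n) h
  simpa using this

theorem toC_sigSer_coeff (k n : ℕ) : PowerSeries.coeff n (toC (sigSer k)) = ((σ k n : ℕ) : ℂ) := by
  simp [toC]

/-! ### The analytic inputs -/

theorem nice_E (k : ℕ) (hk : 3 ≤ k) : Nice (⇑(E hk) : ℍ → ℂ) where
  per := SlashInvariantFormClass.periodic_comp_ofComplex (E hk) one_mem_strictPeriods_SL
  hol := ModularFormClass.holo (E hk)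
  bdd := ModularFormClass.bdd_at_infty (E hk)

theorem qExpansion_E4' : qExpansion 1 (⇑E₄ : ℍ → ℂ) = toC eisenstein4 := qExpansion_E4

theorem qExpansion_E6 : qExpansion 1 (⇑E₆ : ℍ → ℂ) = toC eisenstein6 := by
  ext m
  rw [E_qExpansion_coeff _ ⟨3, rfl⟩, eisenstein6, map_sub, map_one, map_mul, map_sub,
    PowerSeries.coeff_one]
  have h504 : toC (504 : PowerSeries ℤ) = PowerSeries.C (504 : ℂ) := by
    rw [map_ofNat]; exact (map_ofNat (PowerSeries.C (R := ℂ)) 504).symm
  rw [h504, PowerSeries.coeff_C_mul, toC_sigSer_coeff]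
  by_cases hm : m = 0
  · simp [hm]
  · simp only [hm, if_false]
    rw [show bernoulli 6 = 1 / 42 by decide +kernel]
    push_cast
    ring

theorem qExpansion_E8 : qExpansion 1 (⇑(E (by norm_num : 3 ≤ 8)) : ℍ → ℂ) = toC eisenstein8 := by
  ext m
  rw [E_qExpansion_coeff _ ⟨4, rfl⟩, eisenstein8, map_add, map_one, map_mul, map_add,
    PowerSeries.coeff_one]
  have h480 : toC (480 : PowerSeries ℤ) = PowerSeries.C (480 : ℂ) := by
    rw [map_ofNat]; exact (map_ofNat (PowerSeries.C (R := ℂ)) 480).symm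
  rw [h480, PowerSeries.coeff_C_mul, toC_sigSer_coeff]
  by_cases hm : m = 0
  · simp [hm]
  · simp only [hm, if_false]
    rw [show bernoulli 8 = -1 / 30 by decide +kernel]
    push_cast
    ring

/-- `E₄² - E₈` as a level one form of weight `8`. -/
def E4sqSubE8 : ModularForm 𝒮ℒ ((8 : ℕ) : ℤ) :=
  ModularForm.mcast (by decide) (E₄.pow 2) - E (by norm_num : 3 ≤ 8)

theorem E4sqSubE8_qExpansion_eq :
    qExpansion 1 E4sqSubE8 = qExpansion 1 E₄ * qExpansion 1 E₄ -
      qExpansion 1 (E (by norm_num : 3 ≤ 8)) := by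
  simp only [E4sqSubE8, FunLike.coe_sub, coe_mcast,
    ModularForm.qExpansion_sub one_pos one_mem_strictPeriods_SL,
    ModularForm.qExpansion_pow one_pos one_mem_strictPeriods_SL]
  ring

theorem E4sqSubE8_eq_zero : E4sqSubE8 = 0 := by
  apply sturm_bound_levelOne_nat
  have h0 : PowerSeries.coeff 0 (qExpansion 1 E4sqSubE8) = 0 := by
    rw [E4sqSubE8_qExpansion_eq, map_sub, PowerSeries.coeff_mul]
    simp [E_qExpansion_coeff_zero _ ⟨2, rfl⟩, E_qExpansion_coeff_zero _ ⟨4, rfl⟩,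
      -PowerSeries.coeff_zero_eq_constantCoeff]
  have h1 : ((1 : ℕ) : ℕ∞) ≤ (qExpansion 1 E4sqSubE8).order :=
    PowerSeries.nat_le_order _ 1 (fun i hi => by
      have : i = 0 := by omega
      subst this
      exact h0)
  have h2 : ((8 / 12 : ℕ) : ℕ∞) = 0 := by norm_num
  rw [h2]
  exact lt_of_lt_of_le (by norm_num) h1

/-- **`E₄² = E₈`** as formal integral power series. -/
theorem eisenstein4_sq : eisenstein4 ^ 2 = eisenstein8 := by
  apply toC_injective
  have h := E4sqSubE8_qExpansion_eq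
  rw [E4sqSubE8_eq_zero] at h
  have h0 : qExpansion 1 (⇑(0 : ModularForm 𝒮ℒ ((8 : ℕ) : ℤ)) : ℍ → ℂ) = 0 := by
    simpa using qExpansion_zero (1 : ℝ)
  rw [h0, qExpansion_E4', qExpansion_E8] at h
  rw [map_pow, pow_two]
  exact (sub_eq_zero.mp h.symm)

theorem toC_deltaZ : toC deltaZ = PowerSeries.X * etaC ^ 24 := by
  rw [deltaZ, map_mul, dedekindEtaUnit, map_pow, PowerSeries.map_X]
  rfl

theorem qExpansion_delta_fun : qExpansion 1 (qP * etaH ^ 24) = toC deltaZ := by
  rw [nice_qP.qExpansion_mul (nice_etaH.pow 24), nice_etaH.qExpansion_pow, qExpansion_qP,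
    qExpansion_etaH, toC_deltaZ]

theorem delta_fun_identity :
    (1728 : ℂ) • (qP * etaH ^ 24) + (⇑E₆ : ℍ → ℂ) ^ 2 = (⇑E₄ : ℍ → ℂ) ^ 3 := by
  funext τ
  have h1 := discriminant_eq_E₄_cube_sub_E₆_sq τ
  have h2 := Fermat.Agent.S24.JExp.discriminant_eq τ
  simp only [Pi.add_apply, Pi.smul_apply, Pi.mul_apply, Pi.pow_apply, smul_eq_mul]
  rw [← h2, h1]
  ring

/-- **`1728 Δ = E₄³ - E₆²`** as formal integral power series. -/
theorem deltaZ_identity : 1728 * deltaZ + eisenstein6 ^ 2 = eisenstein4 ^ 3 := by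
  apply toC_injective
  have h := congrArg (qExpansion 1) delta_fun_identity
  have hd : Nice (qP * etaH ^ 24) := nice_qP.mul (nice_etaH.pow 24)
  have hsm : Nice ((1728 : ℂ) • (qP * etaH ^ 24)) := by
    have := (Nice.const 1728).mul hd
    exact this
  rw [hsm.qExpansion_add ((nice_E 6 (by norm_num)).pow 2),
    UpperHalfPlane.qExpansion_smul hd.analyticAt, (nice_E 6 (by norm_num)).qExpansion_pow,
    (nice_E 4 (by norm_num)).qExpansion_pow, qExpansion_delta_fun, qExpansion_E6,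
    qExpansion_E4'] at h
  rw [map_add, map_mul, map_pow, map_pow, ← h, map_ofNat]
  congr 1
  rw [← map_ofNat (PowerSeries.C (R := ℂ)) 1728, ← PowerSeries.smul_eq_C_mul]

theorem qExpansion_invEta : qExpansion 1 invEta = toC dedekindEtaUnitInv := by
  have h1 : invEta * etaH ^ 24 = (1 : ℍ → ℂ) := by
    funext τ
    simp only [Pi.mul_apply, Pi.pow_apply, Pi.one_apply]
    exact invEta_mul τ
  have h2 : qExpansion 1 invEta * etaC ^ 24 = 1 := by
    rw [← qExpansion_etaH, ← nice_etaH.qExpansion_pow, ← nice_invEta.qExpansion_mul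
      (nice_etaH.pow 24), h1, qExpansion_one]
  have h3 : toC dedekindEtaUnitInv * etaC ^ 24 = 1 := by
    have := congrArg toC dedekindEtaUnit_mul_inv
    rw [map_mul, map_one, dedekindEtaUnit, map_pow, mul_comm] at this
    exact this
  exact mul_right_cancel₀ (pow_ne_zero 24 etaC_ne_zero) (h2.trans h3.symm)

theorem discriminant_mul_invEta (τ : ℍ) : ModularForm.discriminant τ * invEta τ = qP τ := by
  rw [Fermat.Agent.S24.JExp.discriminant_eq, mul_assoc, mul_comm (etaH τ ^ 24), invEta_mul,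
    mul_one]

/-! ### The congruence `Δ ≡ a - a³ mod 3` -/

theorem sigSer_relation : sigSer 3 + 120 * sigSer 3 ^ 2 = sigSer 7 := by
  have h := eisenstein4_sq
  rw [eisenstein4_eq, eisenstein8] at h
  have h2 : (480 : PowerSeries ℤ) * (sigSer 3 + 120 * sigSer 3 ^ 2) = 480 * sigSer 7 := by
    linear_combination h
  have h480 : (480 : PowerSeries ℤ) ≠ 0 := by
    intro h0
    have := congrArg (PowerSeries.constantCoeff) h0
    rw [map_ofNat] at this
    norm_num at this
  exact mul_left_cancel₀ h480 h2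

theorem key36 : ∀ x : ZMod 36, 10 * x ^ 7 + 7 * x ^ 5 - 17 * x ^ 3 = 0 := by decide

theorem dvd36 (d : ℤ) : (36 : ℤ) ∣ 10 * d ^ 7 + 7 * d ^ 5 - 17 * d ^ 3 := by
  have h := key36 (d : ZMod 36)
  have h2 : ((10 * d ^ 7 + 7 * d ^ 5 - 17 * d ^ 3 : ℤ) : ZMod 36) = 0 := by
    push_cast
    exact h
  exact_mod_cast (ZMod.intCast_zmod_eq_zero_iff_dvd _ 36).mp h2

theorem dvd36_sigma (n : ℕ) :
    (36 : ℤ) ∣ 10 * ((σ 7 n : ℕ) : ℤ) + 7 * ((σ 5 n : ℕ) : ℤ) - 17 * ((σ 3 n : ℕ) : ℤ) := by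
  simp only [ArithmeticFunction.sigma_apply]
  push_cast
  rw [Finset.mul_sum, Finset.mul_sum, Finset.mul_sum, ← Finset.sum_add_distrib,
    ← Finset.sum_sub_distrib]
  exact Finset.dvd_sum fun d _ => dvd36 d

/-- the quotient series `(10 c + 7 b - 17 a) / 36` -/
def quotSer : PowerSeries ℤ := PowerSeries.mk fun n =>
  (10 * ((σ 7 n : ℕ) : ℤ) + 7 * ((σ 5 n : ℕ) : ℤ) - 17 * ((σ 3 n : ℕ) : ℤ)) / 36

theorem quotSer_spec : 10 * sigSer 7 + 7 * sigSer 5 - 17 * sigSer 3 = 36 * quotSer := by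
  ext n
  have h10 := coeff_intCast_mul 10 (sigSer 7) n
  have h7 := coeff_intCast_mul 7 (sigSer 5) n
  have h17 := coeff_intCast_mul 17 (sigSer 3) n
  have h36 := coeff_intCast_mul 36 quotSer n
  push_cast at h10 h7 h17 h36
  rw [map_sub, map_add, h10, h7, h17, h36, quotSer, PowerSeries.coeff_mk, coeff_sigSer,
    coeff_sigSer, coeff_sigSer, Int.mul_ediv_cancel' (dvd36_sigma n)]

/-- **`Δ ≡ a - a³ mod 3`** with `a = ∑ σ₃(n) qⁿ`. -/
theorem deltaZ_mod3 : ∃ R : PowerSeries ℤ, deltaZ = sigSer 3 - sigSer 3 ^ 3 + 3 * R := by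
  refine ⟨quotSer + 2667 * sigSer 3 ^ 3 - 49 * sigSer 5 ^ 2, ?_⟩
  have h1 := deltaZ_identity
  rw [eisenstein4_eq, eisenstein6] at h1
  have h2 := sigSer_relation
  have h3 := quotSer_spec
  have h1728 : (1728 : PowerSeries ℤ) ≠ 0 := by
    intro h0
    have := congrArg (PowerSeries.constantCoeff) h0
    rw [map_ofNat] at this
    norm_num at this
  apply mul_left_cancel₀ h1728
  linear_combination h1 + 1440 * h2 + 144 * h3

/-! ### Reduction modulo `3` -/

/-- reduction of coefficients `ℤ[[q]] → 𝔽₃[[q]]` -/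
abbrev red3 : PowerSeries ℤ →+* PowerSeries (ZMod 3) := PowerSeries.map (Int.castRingHom (ZMod 3))

/-- `𝔽₃[[q]] → 𝔽₃((q))` -/
abbrev toL3 : PowerSeries (ZMod 3) →+* LaurentSeries (ZMod 3) := HahnSeries.ofPowerSeries ℤ (ZMod 3)

/-- `φ̄ = ∑ σ₁(n) qⁿ mod 3` as a Laurent series over `𝔽₃`. -/
def phib : LaurentSeries (ZMod 3) :=
  HahnSeries.ofPowerSeries ℤ (ZMod 3) (phiZ.map (Int.castRingHom (ZMod 3)))

theorem phib_eq : phib = toL3 (red3 (sigSer 1)) := rfl

theorem ofNat_eq_zero_of_dvd (n : ℕ) [n.AtLeastTwo] (h : (OfNat.ofNat n : ZMod 3) = 0) :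
    (OfNat.ofNat n : PowerSeries (ZMod 3)) = 0 := by
  rw [← map_ofNat (PowerSeries.C (R := ZMod 3)) n, h, map_zero]

theorem red3_sigSer_three : red3 (sigSer 3) = red3 (sigSer 1) := by
  ext n
  simp only [PowerSeries.coeff_map, coeff_sigSer, eq_intCast,
    ArithmeticFunction.sigma_apply]
  push_cast
  refine Finset.sum_congr rfl fun d _ => ?_
  have key : ∀ x : ZMod 3, x ^ 3 = x ^ 1 := by decide
  exact key _

theorem red3_eisenstein4 : red3 eisenstein4 = 1 := by
  rw [eisenstein4_eq, map_add, map_one, map_mul, map_ofNat,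
    ofNat_eq_zero_of_dvd 240 (by decide), zero_mul, add_zero]

theorem red3_eisenstein6 : red3 eisenstein6 = 1 := by
  rw [eisenstein6, map_sub, map_one, map_mul, map_ofNat,
    ofNat_eq_zero_of_dvd 504 (by decide), zero_mul, sub_zero]

theorem red3_jNum : red3 jNum = red3 dedekindEtaUnitInv := by
  rw [jNum, map_mul, map_pow, red3_eisenstein4, one_pow, one_mul]

theorem jqModC_three :
    jqModC (ZMod 3) = HahnSeries.single (-1 : ℤ) 1 * toL3 (red3 dedekindEtaUnitInv) := by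
  rw [jqModC, ← red3_jNum]

/-- `Δ̄` as a Laurent series over `𝔽₃`. -/
def deltab : LaurentSeries (ZMod 3) := toL3 (red3 deltaZ)

theorem deltab_eq : deltab = HahnSeries.single (1 : ℤ) 1 * toL3 (red3 dedekindEtaUnit) := by
  rw [deltab, deltaZ, map_mul, map_mul, PowerSeries.map_X, HahnSeries.ofPowerSeries_X]

theorem jqModC_three_mul_deltab : jqModC (ZMod 3) * deltab = 1 := by
  rw [jqModC_three, deltab_eq]
  have h : toL3 (red3 dedekindEtaUnitInv) * toL3 (red3 dedekindEtaUnit) = 1 := by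
    rw [← map_mul, ← map_mul, mul_comm, dedekindEtaUnit_mul_inv, map_one, map_one]
  calc HahnSeries.single (-1 : ℤ) (1 : ZMod 3) * toL3 (red3 dedekindEtaUnitInv) *
        (HahnSeries.single (1 : ℤ) 1 * toL3 (red3 dedekindEtaUnit))
      = (HahnSeries.single (-1 : ℤ) (1 : ZMod 3) * HahnSeries.single (1 : ℤ) 1) *
        (toL3 (red3 dedekindEtaUnitInv) * toL3 (red3 dedekindEtaUnit)) := by ring
    _ = 1 := by
      rw [h, mul_one, HahnSeries.single_mul_single]
      simp

theorem jqModC_three_inv : (jqModC (ZMod 3))⁻¹ = deltab :=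
  inv_eq_of_mul_eq_one_right jqModC_three_mul_deltab

theorem jqModC_three_ne_zero : jqModC (ZMod 3) ≠ 0 := by
  intro h
  have := jqModC_three_mul_deltab
  rw [h, zero_mul] at this
  exact zero_ne_one this

theorem deltab_eq_phib : deltab = phib - phib ^ 3 := by
  obtain ⟨R, hR⟩ := deltaZ_mod3
  rw [deltab, hR, map_add, map_sub, map_pow, map_mul, map_ofNat,
    ofNat_eq_zero_of_dvd 3 (by decide), zero_mul, add_zero, red3_sigSer_three, map_sub, map_pow,
    ← phib_eq]

/-- **The Artin–Schreier identity** `φ̄³ - φ̄ = -1/j̄` in `𝔽₃((q))`. -/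
theorem phib_cube_sub_self : phib ^ 3 - phib = -(jqModC (ZMod 3))⁻¹ := by
  rw [jqModC_three_inv, deltab_eq_phib]
  ring

/-! ### `q ↦ q^p` on power series and on Laurent series -/

theorem ofPowerSeries_expand {R : Type*} [CommRing R] (p : ℕ) [NeZero p] (f : PowerSeries R) :
    HahnSeries.ofPowerSeries ℤ R (PowerSeries.expand p (NeZero.ne p) f) =
      qExpand R p (HahnSeries.ofPowerSeries ℤ R f) := by
  ext k
  by_cases hk : ((p : ℕ) : ℤ) ∣ k
  · obtain ⟨m, rfl⟩ := hk
    rw [qExpand_coeff_mul]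
    rcases le_or_gt 0 m with hm | hm
    · lift m to ℕ using hm
      rw [show ((p : ℕ) : ℤ) * (m : ℤ) = ((p * m : ℕ) : ℤ) by push_cast; ring,
        HahnSeries.ofPowerSeries_apply_coeff, HahnSeries.ofPowerSeries_apply_coeff,
        PowerSeries.coeff_expand_mul]
    · have hp : (0 : ℤ) < (p : ℤ) := by exact_mod_cast Nat.pos_of_ne_zero (NeZero.ne p)
      rw [ofPowerSeries_coeff_of_neg _ hm, ofPowerSeries_coeff_of_neg _ (by nlinarith)]
  · rw [qExpand_coeff_of_not_dvd p _ hk]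
    rcases le_or_gt 0 k with hk0 | hk0
    · lift k to ℕ using hk0
      rw [HahnSeries.ofPowerSeries_apply_coeff]
      exact PowerSeries.coeff_expand_of_not_dvd p (NeZero.ne p) f (by exact_mod_cast hk)
    · exact ofPowerSeries_coeff_of_neg _ hk0

end

end Fermat.Agent.S16.Three.Series
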