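import Mathlib
import Fermat.Agent.S16.Three.Series
import Fermat.Agent.S16.Bridge.Chart
import Fermat.Agent.S16.LevelRaise
import Fermat.Prelude.Thm_CongruenceSubgroup_one_mem_strictPeriods_Gamma0

/-!
# S16 / Three / Functions: the two level `p` modular functions for `ℓ = 3`

For a prime `p ≠ 3`:

* `r₁ = ((E₄(pz) - E₄(z))/3) E₄² / Δ` is a modular function on `Γ₀(p)` whose `q`-expansion is
  integral with reduction `(φ̄ - φ̄(q^p)) j̄` modulo `3`; hence `φ̄ - φ̄(q^p) ∈ 𝔽₃(j̄, j̄_p)`.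
* for a weight two form `g` on `Γ₀(p)` with integral `q`-expansion `G`, `r_g = g E₄ E₆ / Δ` has
  reduction `Ḡ j̄`; hence `Ḡ ∈ 𝔽₃(j̄, j̄_p)`.
-/

set_option autoImplicit false

namespace Fermat.Agent.S16.Three.Functions

open PowerSeries ModularCurve ModularForm EisensteinSeries UpperHalfPlane CongruenceSubgroup
open Fermat.Agent.S20 Fermat.Agent.S24.JExp
open Fermat.Agent.S24.JPoly (qq Rep qq_one)
open Fermat.Agent.S16.Bridge Fermat.Agent.S16.Bridge.Chart Fermat.Agent.S16.ChartQExp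
open Fermat.Agent.S16.LevelRaise Fermat.Agent.S16.Three.Series
open scoped MatrixGroups

noncomputable section

/-! ### Generalities -/

/-- a modular form on `Γ₀(N)` is `Nice` (1-periodic, holomorphic, bounded at `i∞`). -/
theorem nice_of_isMF {N : ℕ} [NeZero N] {k : ℤ} {f : ℍ → ℂ} (hf : IsMF N k f) : Nice f where
  per := SlashInvariantFormClass.periodic_comp_ofComplex hf.toMF (one_mem_strictPeriods_Gamma0 N)
  hol := hf.1
  bdd := by
    have := hf.2.2 1
    simpa using this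

/-- a `Nice` function is represented by its `q`-expansion. -/
theorem rep_of_nice {f : ℍ → ℂ} (hf : Nice f) : Rep 1 (qExpansion 1 f) f := fun z => by
  have := hf.hasSum z
  simpa [qq] using this

/-- `q / Δ` is the holomorphic function `invEta`: division by `Δ` in terms of `invEta`. -/
theorem div_delta_mul_qq (u : ℍ → ℂ) (z : ℍ) :
    u z / ModularForm.discriminant z * qq 1 z ^ 1 = (u * invEta) z := by
  have h1 := discriminant_mul_invEta z
  have h2 : ModularForm.discriminant z ≠ 0 := ModularForm.discriminant_ne_zero z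
  have h3 : qq 1 z = qP z := by rw [qq_one]; rfl
  rw [pow_one, h3, ← h1, Pi.mul_apply]
  field_simp

/-- **the generic step**: a weight `12` form `u` on `Γ₀(N)` with integral `q`-expansion `U` gives
the element `q⁻¹ Ū / Δ̄'` (`= Ū j̄` when `ℓ = 3`) of the function field of `X₀(N)` mod `ℓ`. -/
theorem red_div_delta_mem {N : ℕ} [NeZero N] (ℓ : ℕ) [Fact ℓ.Prime] (h : ¬ ℓ ∣ N) {u : ℍ → ℂ}
    (hu : IsMF N 12 u) (U : PowerSeries ℤ) (hU : qExpansion 1 u = toC U) :
    serR 1 ((U * dedekindEtaUnitInv).map (Int.castRingHom (ZMod ℓ))) ∈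
      modularFunctionFieldC (ZMod ℓ) N := by
  have hΔ : IsMF N 12 (⇑CuspForm.discriminant : ℍ → ℂ) := (isCF_delta.of_levelOne).isMF
  have hmf : IsModFun N (fun z => u z / (⇑CuspForm.discriminant : ℍ → ℂ) z) :=
    isModFun_div_of_isMF hu hΔ (fun z => ModularForm.discriminant_ne_zero z)
  have hnu : Nice u := nice_of_isMF hu
  have hN : Nice (u * invEta) := hnu.mul nice_invEta
  have hq : qExpansion 1 (u * invEta) = toC (U * dedekindEtaUnitInv) := by
    rw [hnu.qExpansion_mul nice_invEta, hU, qExpansion_invEta, ← map_mul]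
  have hrep : Rep 1 ((U * dedekindEtaUnitInv).map (Int.castRingHom ℂ))
      (fun z => (fun z => u z / (⇑CuspForm.discriminant : ℍ → ℂ) z) z * qq 1 z ^ 1) := by
    have := rep_of_nice hN
    rw [hq] at this
    exact this.congr (fun z => (div_delta_mul_qq u z).symm)
  obtain ⟨b, -, hb⟩ := exists_chart_of_isModFun_int ℓ h hmf 1 (U * dedekindEtaUnitInv) hrep
  rw [← hb]
  exact ρB_mem_fieldC N ℓ h b

/-! ### The case `ℓ = 3` -/

theorem serR_one_three (U : PowerSeries ℤ) :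
    serR 1 ((U * dedekindEtaUnitInv).map (Int.castRingHom (ZMod 3))) =
      toL3 (red3 U) * jqModC (ZMod 3) := by
  rw [jqModC_three, serR, map_mul, map_mul]
  simp only [Nat.cast_one]
  ring

/-- **a weight `12` form on `Γ₀(N)`, `3 ∤ N`, with integral `q`-expansion `U` has `Ū` in the
function field `𝔽₃(j̄, j̄_N)`.** -/
theorem red_mem_three {N : ℕ} [NeZero N] (h : ¬ 3 ∣ N) {u : ℍ → ℂ}
    (hu : IsMF N 12 u) (U : PowerSeries ℤ) (hU : qExpansion 1 u = toC U) :
    toL3 (red3 U) ∈ modularFunctionFieldC (ZMod 3) N := by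
  have h1 := red_div_delta_mem 3 h hu U hU
  rw [serR_one_three] at h1
  have hj : jqModC (ZMod 3) ∈ modularFunctionFieldC (ZMod 3) N := jqModC_mem (ZMod 3) N
  have h2 : toL3 (red3 U) = toL3 (red3 U) * jqModC (ZMod 3) * (jqModC (ZMod 3))⁻¹ := by
    rw [mul_assoc, mul_inv_cancel₀ jqModC_three_ne_zero, mul_one]
  rw [h2]
  exact mul_mem h1 (inv_mem hj)

/-- **weight two forms**: a weight `2` form on `Γ₀(N)`, `3 ∤ N`, with integral `q`-expansion `G`
has `Ḡ ∈ 𝔽₃(j̄, j̄_N)` (multiply by `E₄ E₆ ≡ 1 mod 3`). -/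
theorem red_mem_three_of_weight_two {N : ℕ} [NeZero N] (h : ¬ 3 ∣ N) {g : ℍ → ℂ}
    (hg : IsMF N 2 g) (G : PowerSeries ℤ) (hG : qExpansion 1 g = toC G) :
    toL3 (red3 G) ∈ modularFunctionFieldC (ZMod 3) N := by
  have h46 : IsMF N (4 + 6) ((⇑E₄ : ℍ → ℂ) * ⇑E₆) := (isMF_E4.mul isMF_E6).of_levelOne
  have hu : IsMF N 12 (g * ((⇑E₄ : ℍ → ℂ) * ⇑E₆)) := by
    have := hg.mul h46
    norm_num at this
    exact this
  have hng : Nice g := nice_of_isMF hg
  have hU : qExpansion 1 (g * ((⇑E₄ : ℍ → ℂ) * ⇑E₆)) = toC (G * (eisenstein4 * eisenstein6)) := by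
    rw [hng.qExpansion_mul (nice_E4.mul (nice_E 6 (by norm_num))),
      nice_E4.qExpansion_mul (nice_E 6 (by norm_num)), hG, qExpansion_E4', qExpansion_E6,
      ← map_mul, ← map_mul]
  have := red_mem_three h hu _ hU
  rwa [map_mul (red3), map_mul (red3), red3_eisenstein4, red3_eisenstein6, mul_one, mul_one]
    at this

/-! ### `E₄(pz)` and the function `r₁` -/

section E4p

variable (p : ℕ) [NeZero p]

theorem qExpansion_Vd {f : ℍ → ℂ} (hf : Nice f) (hVf : Nice (Vd p f)) (F : PowerSeries ℤ)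
    (hF : qExpansion 1 f = toC F) :
    qExpansion 1 (Vd p f) = toC (PowerSeries.expand p (NeZero.ne p) F) := by
  rw [hVf.qExpansion_eq (c := fun n => if p ∣ n then PowerSeries.coeff (n / p) (toC F) else 0)]
  · ext n
    rw [PowerSeries.coeff_mk, PowerSeries.coeff_map, PowerSeries.coeff_map,
      PowerSeries.coeff_expand]
    split_ifs <;> simp
  · intro τ
    have h := hasSum_Vd p (f := f) (c := fun n => PowerSeries.coeff n (toC F)) (fun τ => by
      have := hf.hasSum τ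
      rw [hF] at this
      simpa [smul_eq_mul] using this) τ
    simpa [smul_eq_mul] using h

/-- `E₄(pz)` -/
def E4p : ℍ → ℂ := Vd p (⇑E₄ : ℍ → ℂ)

theorem isMF_E4p : IsMF p 4 (E4p p) := by
  have := IsMF.Vd p isMF_E4
  rwa [mul_one] at this

theorem qExpansion_E4p :
    qExpansion 1 (E4p p) = toC (PowerSeries.expand p (NeZero.ne p) eisenstein4) :=
  qExpansion_Vd p nice_E4 (nice_of_isMF (isMF_E4p p)) eisenstein4 qExpansion_E4'

/-- the numerator of `r₁`: `((E₄(pz) - E₄(z))/3) E₄²` -/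
def num1 : ℍ → ℂ := ((3 : ℂ)⁻¹ • (E4p p + (-1 : ℂ) • (⇑E₄ : ℍ → ℂ))) * ((⇑E₄ : ℍ → ℂ) * ⇑E₄)

theorem isMF_num1 : IsMF p 12 (num1 p) := by
  have h1 : IsMF p 4 ((3 : ℂ)⁻¹ • (E4p p + (-1 : ℂ) • (⇑E₄ : ℍ → ℂ))) :=
    ((isMF_E4p p).add ((isMF_E4.of_levelOne).smul (-1))).smul _
  have h2 : IsMF p (4 + 4) ((⇑E₄ : ℍ → ℂ) * ⇑E₄) := (isMF_E4.mul isMF_E4).of_levelOne
  have h12 : (4 : ℤ) + (4 + 4) = 12 := by norm_num
  have := h1.mul h2
  rw [h12] at this
  exact this

/-- the integral `q`-expansion of `num1` -/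
def U1 : PowerSeries ℤ :=
  80 * (PowerSeries.expand p (NeZero.ne p) (sigSer 3) - sigSer 3) * (eisenstein4 * eisenstein4)

theorem nice_smul {f : ℍ → ℂ} (c : ℂ) (hf : Nice f) : Nice (c • f) := (Nice.const c).mul hf

theorem expand_eisenstein4_sub :
    PowerSeries.expand p (NeZero.ne p) eisenstein4 - eisenstein4 =
      240 * (PowerSeries.expand p (NeZero.ne p) (sigSer 3) - sigSer 3) := by
  rw [eisenstein4_eq, map_add, map_one, map_mul, map_ofNat]
  ring

theorem qExpansion_num1 : qExpansion 1 (num1 p) = toC (U1 p) := by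
  have hE4p : Nice (E4p p) := nice_of_isMF (isMF_E4p p)
  have hm : Nice ((-1 : ℂ) • (⇑E₄ : ℍ → ℂ)) := nice_smul _ nice_E4
  have hs : Nice (E4p p + (-1 : ℂ) • (⇑E₄ : ℍ → ℂ)) := hE4p.add hm
  have h3 : Nice ((3 : ℂ)⁻¹ • (E4p p + (-1 : ℂ) • (⇑E₄ : ℍ → ℂ))) := nice_smul _ hs
  rw [num1, h3.qExpansion_mul (nice_E4.mul nice_E4), nice_E4.qExpansion_mul nice_E4,
    UpperHalfPlane.qExpansion_smul hs.analyticAt, hE4p.qExpansion_add hm,
    UpperHalfPlane.qExpansion_smul nice_E4.analyticAt, qExpansion_E4p, qExpansion_E4', U1,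
    map_mul, map_mul, map_mul]
  congr 1
  have h1 : toC (PowerSeries.expand p (NeZero.ne p) eisenstein4) + (-1 : ℂ) • toC eisenstein4 =
      toC (240 * (PowerSeries.expand p (NeZero.ne p) (sigSer 3) - sigSer 3)) := by
    rw [← expand_eisenstein4_sub, map_sub]
    simp [sub_eq_add_neg]
  rw [h1, map_mul, map_ofNat, map_ofNat, PowerSeries.smul_eq_C_mul, ← mul_assoc]
  congr 1
  rw [← map_ofNat (PowerSeries.C (R := ℂ)) 240, ← map_ofNat (PowerSeries.C (R := ℂ)) 80,
    ← map_mul]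
  congr 1
  norm_num

theorem red3_U1 :
    red3 (U1 p) = red3 (sigSer 1) - PowerSeries.expand p (NeZero.ne p) (red3 (sigSer 1)) := by
  have h80 : (80 : PowerSeries (ZMod 3)) = -1 := by
    rw [← map_ofNat (PowerSeries.C (R := ZMod 3)) 80, show (80 : ZMod 3) = -1 by decide, map_neg,
      map_one]
  rw [U1, map_mul, map_mul, map_mul, red3_eisenstein4, map_sub, PowerSeries.map_expand,
    red3_sigSer_three, map_ofNat, h80]
  ring

/-- **`φ̄ - φ̄(q^p) ∈ 𝔽₃(j̄, j̄_p)`** for every `p` prime to `3`. -/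
theorem phib_sub_mem (h3 : ¬ 3 ∣ p) :
    phib - qExpand (ZMod 3) p phib ∈ modularFunctionFieldC (ZMod 3) p := by
  have h := red_mem_three h3 (isMF_num1 p) (U1 p) (qExpansion_num1 p)
  rwa [red3_U1, map_sub, ofPowerSeries_expand, ← phib_eq] at h

end E4p

/-! ### Consumer shapes -/

/-- **`φ̄ - φ̄(q^p) ∈ 𝔽₃(j̄, j̄_p)`**, `p` a prime different from `3`. -/
theorem phib_sub_mem' (p : ℕ) [hp : Fact p.Prime] (hp3 : p ≠ 3) :
    phib - qExpand (ZMod 3) p phib ∈ modularFunctionFieldC (ZMod 3) p :=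
  phib_sub_mem p (fun h => hp3 ((Nat.prime_dvd_prime_iff_eq Nat.prime_three hp.out).mp h).symm)

/-- a weight two form on `Γ₀(p)` with integral `q`-coefficients `a n` has its reduction mod `3`
in `𝔽₃(j̄, j̄_p)`. -/
theorem modForm_red_mem (p : ℕ) [hp : Fact p.Prime] (hp3 : p ≠ 3) {g : ℍ → ℂ}
    (hg : IsMF p 2 g) (a : ℕ → ℤ) (ha : ∀ n, ModularFormClass.qCoeff g n = a n) :
    HahnSeries.ofPowerSeries ℤ (ZMod 3) (PowerSeries.mk fun n => ((a n : ℤ) : ZMod 3)) ∈
      modularFunctionFieldC (ZMod 3) p := by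
  have h3 : ¬ 3 ∣ p :=
    fun h => hp3 ((Nat.prime_dvd_prime_iff_eq Nat.prime_three hp.out).mp h).symm
  have hG : qExpansion 1 g = toC (PowerSeries.mk a) := by
    ext n
    rw [PowerSeries.coeff_map, PowerSeries.coeff_mk]
    exact ha n
  have := red_mem_three_of_weight_two h3 hg (PowerSeries.mk a) hG
  have e : red3 (PowerSeries.mk a) = PowerSeries.mk fun n => ((a n : ℤ) : ZMod 3) := by
    ext n
    simp
  rwa [e] at this

/-- the same for cusp forms (shape of subtasks row 268). -/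
theorem cuspForm_red_mem (p : ℕ) [Fact p.Prime] (hp3 : p ≠ 3) {g : ℍ → ℂ}
    (hg : IsCF p 2 g) (a : ℕ → ℤ) (ha : ∀ n, ModularFormClass.qCoeff g n = a n) :
    HahnSeries.ofPowerSeries ℤ (ZMod 3) (PowerSeries.mk fun n => ((a n : ℤ) : ZMod 3)) ∈
      modularFunctionFieldC (ZMod 3) p :=
  modForm_red_mem p hp3 hg.isMF a ha

end

end Fermat.Agent.S16.Three.Functions
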