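import Mathlib

set_option autoImplicit false

/-!
# S16 / Three (E2, abstract core): an Artin–Schreier element is not in the function field

Mathlib only.

* `no_ratFunc_AS`: the equation `r ^ ℓ - r + 1/X = 0` has no solution in `RatFunc k` (`ℓ ≥ 2`).
* `eq_zero_of_sum_mul_pow_eq_zero`: if `x ∈ k((t))` has order `-1` and the `g i` (`i < p`) are zero or
  of order divisible by `p`, then `∑ g i * x ^ i = 0` forces all `g i = 0`.
* `AS_not_mem_range`: let `Ψ` be irreducible of degree `p + 1` over `k(J)` with roots `x0` and `x1`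
  in `k((t))`, `x1` of order `-1`, everything rational lying in a subfield `L0` whose nonzero elements
  have order divisible by `p`; then a solution `φ ∈ L0` of `φ ^ ℓ - φ + 1/J = 0` does not lie in
  `k(J)(x0)`.
-/

namespace Fermat.Agent.S16.Three.ASCore

open Polynomial

noncomputable section

/-! ### No Artin–Schreier solution in `k(X)` -/

theorem no_ratFunc_AS {k : Type*} [Field k] {ℓ : ℕ} (hℓ : 2 ≤ ℓ) (r : RatFunc k) :
    r ^ ℓ - r + (RatFunc.X)⁻¹ ≠ 0 := by
  intro h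
  set a := r.num with ha
  set b := r.denom with hb
  have hb0 : b ≠ 0 := RatFunc.denom_ne_zero r
  have hcop : IsCoprime a b := RatFunc.isCoprime_num_denom r
  have hinj := RatFunc.algebraMap_injective k
  set φ := algebraMap k[X] (RatFunc k) with hφ
  have hφb : φ b ≠ 0 := fun h0 => hb0 (hinj (by rw [h0, map_zero]))
  have hX : (RatFunc.X : RatFunc k) ≠ 0 := RatFunc.X_ne_zero
  have hr : r = φ a / φ b := (RatFunc.num_div_denom r).symm
  -- polynomial identity `X a^ℓ - X a b^(ℓ-1) + b^ℓ = 0`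
  obtain ⟨n, rfl⟩ : ∃ n, ℓ = n + 2 := ⟨ℓ - 2, by omega⟩
  have hpoly : X * a ^ (n + 2) - X * a * b ^ (n + 1) + b ^ (n + 2) = 0 := by
    apply hinj
    rw [map_zero, map_add, map_sub, map_mul, map_mul, map_mul, map_pow, map_pow, map_pow,
      RatFunc.algebraMap_X]
    have h' : RatFunc.X * φ a ^ (n + 2) - RatFunc.X * φ a * φ b ^ (n + 1) + φ b ^ (n + 2) =
        RatFunc.X * φ b ^ (n + 2) * ((φ a / φ b) ^ (n + 2) - φ a / φ b + (RatFunc.X)⁻¹) := by
      rw [div_pow]
      field_simp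
      ring
    rw [h', ← hr, h, mul_zero]
  -- `X ∣ b`
  have hXb : (X : k[X]) ∣ b := by
    have : (X : k[X]) ∣ b ^ (n + 2) :=
      ⟨a * b ^ (n + 1) - a ^ (n + 2), by linear_combination hpoly⟩
    exact Polynomial.prime_X.dvd_of_dvd_pow this
  obtain ⟨b1, hb1⟩ := hXb
  -- `X ∣ a`
  have hXa : (X : k[X]) ∣ a := by
    have h2 : X * (a ^ (n + 2) - a * (X * b1) ^ (n + 1) + X ^ (n + 1) * b1 ^ (n + 2)) = 0 := by
      rw [hb1] at hpoly
      linear_combination hpoly
    have h3 : a ^ (n + 2) - a * (X * b1) ^ (n + 1) + X ^ (n + 1) * b1 ^ (n + 2) = 0 :=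
      (mul_eq_zero.mp h2).resolve_left X_ne_zero
    have : (X : k[X]) ∣ a ^ (n + 2) :=
      ⟨a * X ^ n * b1 ^ (n + 1) - X ^ n * b1 ^ (n + 2), by linear_combination h3⟩
    exact Polynomial.prime_X.dvd_of_dvd_pow this
  have hunit : IsUnit (X : k[X]) := hcop.isUnit_of_dvd' hXa (hb1 ▸ dvd_mul_right X b1)
  exact Polynomial.not_isUnit_X hunit

/-! ### The order lemma -/

theorem eq_zero_of_sum_mul_pow_eq_zero {k : Type*} [Field k] {p : ℕ} (x : LaurentSeries k)
    (hx : x.order = -1) (hx0 : x ≠ 0) (g : Fin p → LaurentSeries k)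
    (hg : ∀ i, g i ≠ 0 → (p : ℤ) ∣ (g i).order)
    (hsum : ∑ i, g i * x ^ (i : ℕ) = 0) : ∀ i, g i = 0 := by
  classical
  by_contra hne
  push Not at hne
  obtain ⟨j, hj⟩ := hne
  set T : Finset (Fin p) := Finset.univ.filter fun i => g i ≠ 0 with hT
  have hTne : T.Nonempty := ⟨j, by simp [hT, hj]⟩
  have hterm : ∀ i, g i ≠ 0 → g i * x ^ (i : ℕ) ≠ 0 := fun i hi =>
    mul_ne_zero hi (pow_ne_zero _ hx0)
  have hord : ∀ i, g i ≠ 0 → (g i * x ^ (i : ℕ)).order = (g i).order - (i : ℕ) := fun i hi => by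
    rw [HahnSeries.order_mul hi (pow_ne_zero _ hx0), HahnSeries.order_pow, hx]
    simp
    ring
  obtain ⟨i0, hi0T, hmin⟩ := Finset.exists_min_image T (fun i => (g i * x ^ (i : ℕ)).order) hTne
  have hi0 : g i0 ≠ 0 := by simpa [hT] using hi0T
  set o := (g i0 * x ^ (i0 : ℕ)).order with ho
  have hcoef : (∑ i, g i * x ^ (i : ℕ)).coeff o = (g i0 * x ^ (i0 : ℕ)).coeff o := by
    rw [HahnSeries.coeff_sum]
    refine Finset.sum_eq_single i0 (fun i _ hi => ?_) (fun h => absurd (Finset.mem_univ _) h)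
    by_cases hgi : g i = 0
    · rw [hgi, zero_mul, HahnSeries.coeff_zero]
    · apply HahnSeries.coeff_eq_zero_of_lt_order
      have hle : o ≤ (g i * x ^ (i : ℕ)).order := hmin i (by simp [hT, hgi])
      refine lt_of_le_of_ne hle fun heq => hi ?_
      -- equal orders force `i = i0`
      rw [ho, hord i hgi, hord i0 hi0] at heq
      obtain ⟨u, hu⟩ := hg i hgi
      obtain ⟨u0, hu0⟩ := hg i0 hi0
      rw [hu, hu0] at heq
      have h1 : ((i : ℕ) : ℤ) - ((i0 : ℕ) : ℤ) = (p : ℤ) * (u - u0) := by linarith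
      have hi_lt : ((i : ℕ) : ℤ) < p := by exact_mod_cast i.2
      have hi0_lt : ((i0 : ℕ) : ℤ) < p := by exact_mod_cast i0.2
      have hi_nn : (0 : ℤ) ≤ ((i : ℕ) : ℤ) := Int.natCast_nonneg _
      have hi0_nn : (0 : ℤ) ≤ ((i0 : ℕ) : ℤ) := Int.natCast_nonneg _
      have hpp : (0 : ℤ) < p := by linarith
      have hz : u - u0 = 0 := by
        by_contra hz
        rcases lt_or_gt_of_ne hz with h | h
        · have : (p : ℤ) * (u - u0) ≤ (p : ℤ) * (-1) :=
            mul_le_mul_of_nonneg_left (by omega) hpp.le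
          linarith
        · have : (p : ℤ) * 1 ≤ (p : ℤ) * (u - u0) :=
            mul_le_mul_of_nonneg_left (by omega) hpp.le
          linarith
      rw [hz, mul_zero] at h1
      exact Fin.ext (by exact_mod_cast (sub_eq_zero.mp h1))
  rw [hsum, HahnSeries.coeff_zero] at hcoef
  exact HahnSeries.coeff_order_eq_zero.not.mpr (hterm i0 hi0) hcoef.symm

/-! ### The abstract theorem -/

section main

variable {k : Type*} [Field k]

/-- **Abstract form of (E2).** -/
theorem AS_not_mem_range {p : ℕ} (hp : 2 ≤ p) (ψ : RatFunc k →+* LaurentSeries k)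
    (L0 : Subfield (LaurentSeries k))
    (hL0 : ∀ y ∈ L0, y ≠ 0 → (p : ℤ) ∣ y.order) (hψ : ∀ r, ψ r ∈ L0)
    (Ψ : (RatFunc k)[X]) (hirr : Irreducible Ψ) (hdeg : Ψ.natDegree = p + 1)
    (x0 x1 : LaurentSeries k) (h0 : Ψ.eval₂ ψ x0 = 0) (h1 : Ψ.eval₂ ψ x1 = 0)
    (hx1 : x1.order = -1) (hx1ne : x1 ≠ 0)
    {ℓ : ℕ} (hℓ : 2 ≤ ℓ) (φ : LaurentSeries k) (hφ : φ ∈ L0)
    (hAS : φ ^ ℓ - φ + (ψ RatFunc.X)⁻¹ = 0)
    (hroots : ∀ y : LaurentSeries k, y ^ ℓ - y + (ψ RatFunc.X)⁻¹ = 0 → y - φ ∈ L0) :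
    φ ∉ (AdjoinRoot.lift ψ x0 h0).range := by
  classical
  have : Fact (Irreducible Ψ) := ⟨hirr⟩
  rintro ⟨e, he⟩
  set σ0 := AdjoinRoot.lift ψ x0 h0 with hσ0
  set σ1 := AdjoinRoot.lift ψ x1 h1 with hσ1
  have hΨ0 : Ψ ≠ 0 := hirr.ne_zero
  -- the Artin–Schreier equation in `E`
  have hX0 : (AdjoinRoot.of Ψ RatFunc.X) ≠ 0 := by
    intro h
    have := (AdjoinRoot.of Ψ).injective (h.trans (map_zero _).symm)
    exact RatFunc.X_ne_zero this
  have hASE : e ^ ℓ - e + (AdjoinRoot.of Ψ RatFunc.X)⁻¹ = 0 := by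
    apply σ0.injective
    rw [map_zero, map_add, map_sub, map_pow, map_inv₀, hσ0, AdjoinRoot.lift_of, ← hσ0, he]
    exact hAS
  -- transport by `σ1`
  set y1 := σ1 e with hy1
  have hAS1 : y1 ^ ℓ - y1 + (ψ RatFunc.X)⁻¹ = 0 := by
    have := congrArg σ1 hASE
    rw [map_zero, map_add, map_sub, map_pow, map_inv₀, hσ1, AdjoinRoot.lift_of, ← hσ1] at this
    exact this
  have hy1L0 : y1 ∈ L0 := by
    have := L0.add_mem (hroots y1 hAS1) hφ
    simpa using this
  -- a linear dependence in `E`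
  let pb := AdjoinRoot.powerBasis hΨ0
  have : Module.Finite (RatFunc k) (AdjoinRoot Ψ) := pb.finite
  have hfin : Module.finrank (RatFunc k) (AdjoinRoot Ψ) = p + 1 := by
    rw [pb.finrank, AdjoinRoot.powerBasis_dim, hdeg]
  let v : Fin 2 × Fin p → AdjoinRoot Ψ := fun ai => e ^ (ai.1 : ℕ) * AdjoinRoot.root Ψ ^ (ai.2 : ℕ)
  have hdep : ¬ LinearIndependent (RatFunc k) v := by
    intro hli
    have := hli.fintype_card_le_finrank
    rw [hfin, Fintype.card_prod, Fintype.card_fin, Fintype.card_fin] at this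
    omega
  obtain ⟨g, hg, ai0, hai0⟩ := Fintype.not_linearIndependent_iff.mp hdep
  -- apply `σ1`
  have hσ1smul : ∀ (r : RatFunc k) (w : AdjoinRoot Ψ), σ1 (r • w) = ψ r * σ1 w := fun r w => by
    rw [Algebra.smul_def, AdjoinRoot.algebraMap_eq, map_mul, hσ1, AdjoinRoot.lift_of]
  have hrel : ∑ i : Fin p, (ψ (g (0, i)) + ψ (g (1, i)) * y1) * x1 ^ (i : ℕ) = 0 := by
    have := congrArg σ1 hg
    rw [map_zero, map_sum, Fintype.sum_prod_type, Fin.sum_univ_two] at this
    rw [← this, ← Finset.sum_add_distrib]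
    refine Finset.sum_congr rfl fun i _ => ?_
    rw [hσ1smul, hσ1smul]
    simp only [v]
    rw [map_mul, map_mul, map_pow, map_pow, map_pow, hσ1, AdjoinRoot.lift_root, ← hσ1, ← hy1]
    simp only [Fin.val_zero, Fin.val_one, pow_zero, pow_one]
    ring
  have hG : ∀ i : Fin p, ψ (g (0, i)) + ψ (g (1, i)) * y1 = 0 :=
    eq_zero_of_sum_mul_pow_eq_zero x1 hx1 hx1ne _
      (fun i hi => hL0 _ (L0.add_mem (hψ _) (L0.mul_mem (hψ _) hy1L0)) hi) hrel
  -- conclude
  by_cases hall : ∀ i, g (1, i) = 0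
  · -- then all `g (0, i)` vanish too
    have h0i : ∀ i, g (0, i) = 0 := fun i => by
      have := hG i
      rw [hall i, map_zero, zero_mul, add_zero] at this
      exact ψ.injective (this.trans (map_zero _).symm)
    apply hai0
    obtain ⟨a, i⟩ := ai0
    fin_cases a
    · exact h0i i
    · exact hall i
  · push Not at hall
    obtain ⟨i, hi⟩ := hall
    have hψi : ψ (g (1, i)) ≠ 0 := fun h => hi (ψ.injective (h.trans (map_zero _).symm))
    set r : RatFunc k := -(g (0, i) / g (1, i)) with hr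
    have hy1r : y1 = ψ r := by
      rw [hr, map_neg, map_div₀]
      have := hG i
      field_simp
      linear_combination this
    rw [hy1r, ← map_pow, ← map_inv₀, ← map_sub, ← map_add] at hAS1
    exact no_ratFunc_AS hℓ r (ψ.injective (hAS1.trans (map_zero _).symm))

end main

end

end Fermat.Agent.S16.Three.ASCore
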