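import Mathlib
import Fermat.Agent.S16.Three.ASCore
import Fermat.Agent.S28.CoreFinal

set_option autoImplicit false

/-!
# S16 / Three (E2): an Artin–Schreier series is not in `𝔽_ℓ(j̄, j̄_p)`

`not_mem_fieldC`: for a prime `p ≠ 3`, a series `φ ∈ 𝔽₃((q))` with `φ³ - φ + 1/j̄ = 0` does not lie in
`modularFunctionFieldC (ZMod 3) p = 𝔽₃(j̄, j̄_p)`.

Proof: transfer to `k((t))`, `t = q^{1/p}`, `k = kRes 3`, where the S28 `ConjSystem` provides the
irreducible modular polynomial over `k(J)` together with a root of `t`-order `-1`; then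
`ASCore.AS_not_mem_range`.
-/

namespace Fermat.Agent.S16.Three.NotInK

open Polynomial ModularCurve
open Fermat.Agent.S28 Fermat.Agent.S28.Defs Fermat.Agent.S28.CoeffRing Fermat.Agent.S28.IrredSeries
open Fermat.Agent.S20 Fermat.Agent.S28.TauConj Fermat.Agent.S28.HermiteGcd

noncomputable section

theorem dedekindPsi_prime {p : ℕ} (hp : p.Prime) : dedekindPsi p = p + 1 := by
  rw [dedekindPsi, Nat.Prime.divisors hp, Finset.filter_insert, Finset.filter_singleton,
    if_pos squarefree_one, if_pos hp.squarefree]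
  have : (1 : ℕ) ∉ ({p} : Finset ℕ) := by
    simp only [Finset.mem_singleton]; exact fun h => hp.one_lt.ne h
  rw [Finset.sum_insert this, Finset.sum_singleton, Nat.div_one, Nat.div_self hp.pos]

section general

variable {k : Type} [Field k] (N : ℕ) [NeZero N]

/-- the order of `qExpand N z` -/
theorem order_qExpand {z : LaurentSeries k} (hz : z ≠ 0) :
    (qExpand k N z).order = (N : ℤ) * z.order := by
  have hN : (0 : ℤ) < N := by exact_mod_cast Nat.pos_of_ne_zero (NeZero.ne N)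
  refine CoreField.order_eq_of_coeff (fun i hi => ?_) ?_
  · by_cases hd : (N : ℤ) ∣ i
    · obtain ⟨m, rfl⟩ := hd
      rw [qExpand_coeff_mul]
      exact HahnSeries.coeff_eq_zero_of_lt_order (lt_of_mul_lt_mul_left hi hN.le)
    · exact qExpand_coeff_of_not_dvd N z hd
  · rw [qExpand_coeff_mul]
    exact HahnSeries.coeff_order_eq_zero.not.mpr hz

theorem dvd_order_of_mem_fieldRange {y : LaurentSeries k} (hy : y ∈ (qExpand k N).fieldRange)
    (hy0 : y ≠ 0) : (N : ℤ) ∣ y.order := by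
  obtain ⟨z, rfl⟩ := hy
  have hz : z ≠ 0 := fun h => hy0 (by rw [h, map_zero])
  rw [order_qExpand N hz]
  exact dvd_mul_right _ _

/-- `evalJ (j(t^N)) a = qExpand N (evalJ j a)` -/
theorem evalJ_jt (a : k[X]) : evalJ (jt k N) a = qExpand k N (evalJ (jqModC k) a) := by
  rw [evalJ_apply, evalJ_apply, Polynomial.hom_eval₂]
  congr 1
  ext c
  simp

end general

/-! ### The set-up over `k = kRes 3` -/

section setup

variable (p : ℕ) [Fact p.Prime] (ℓ : ℕ) [Fact ℓ.Prime] (hℓp : ¬ ℓ ∣ p)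

/-- the `ConjSystem` of level `p` over the residue field `kRes ℓ` -/
def sysK : ConjSystem (kRes ℓ) p (Q p) :=
  MapSys.map (red ℓ) (ConjU.conjSystem p ℓ hℓp)
    (fun _ _ hζ hζ' h => red_injOn_roots ℓ hℓp hζ hζ' h)

theorem sysK_m (s : Q p) : (sysK p ℓ hℓp).m s = ordQ p s := rfl

theorem sysK_s0 : (sysK p ℓ hℓp).s0 = QuotientGroup.mk 1 := rfl

/-- a conjugate different from the trivial one has `t`-order `-1` -/
theorem order_x_of_ne {s : Q p} (hs : s ≠ (sysK p ℓ hℓp).s0) :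
    ((sysK p ℓ hℓp).x s).order = -1 := by
  have hm : (sysK p ℓ hℓp).m s = 1 := by
    rw [sysK_m, ordQ_eq]
    have hdvd := kappaQ_dvd p s
    have hne : kappaQ p s ≠ p := fun h => hs ((kappaQ_eq_iff p s).mp h)
    rcases (Nat.dvd_prime (Fact.out : p.Prime)).mp hdvd with h | h
    · rw [h, one_pow]
    · exact absurd h hne
  refine CoreField.order_eq_of_coeff (fun i hi => ?_) ?_
  · exact (sysK p ℓ hℓp).hx_low s i (by rw [hm]; simpa using hi)
  · have := (sysK p ℓ hℓp).hx_lc s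
    rw [hm] at this
    simp only [Nat.cast_one] at this
    rw [this]
    exact CoreField.lc_ne_zero _ s

theorem exists_ne_s0 : ∃ s : Q p, s ≠ (sysK p ℓ hℓp).s0 := by
  have hcard : Fintype.card (Q p) = p + 1 := by
    rw [Core.card_Q, dedekindPsi_prime Fact.out]
  have h2 : 1 < Fintype.card (Q p) := by
    rw [hcard]; have := (Fact.out : p.Prime).pos; omega
  obtain ⟨s, hs⟩ := Fintype.exists_ne_of_one_lt_card h2 (sysK p ℓ hℓp).s0
  exact ⟨s, hs⟩

end setup

/-! ### Roots of `X ^ ℓ - X` -/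

theorem exists_zmod_of_pow_eq_self {L : Type*} [Field L] (ℓ : ℕ) [Fact ℓ.Prime] [CharP L ℓ] {c : L}
    (hc : c ^ ℓ = c) : ∃ a : ZMod ℓ, c = ZMod.castHom (dvd_refl ℓ) L a := by
  set i := ZMod.castHom (dvd_refl ℓ) L with hi
  set P : (ZMod ℓ)[X] := X ^ ℓ - X with hP
  have hroots : P.roots = Finset.univ.val := by
    have := FiniteField.roots_X_pow_card_sub_X (ZMod ℓ)
    rwa [ZMod.card] at this
  have hdeg : P.natDegree = ℓ :=
    FiniteField.X_pow_card_sub_X_natDegree_eq (ZMod ℓ) (Fact.out : ℓ.Prime).one_lt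
  have hsplit : P.Splits := by
    rw [splits_iff_card_roots, hroots, hdeg]
    simp [ZMod.card]
  have hmap := hsplit.roots_map i
  have hP0 : P.map i ≠ 0 := by
    intro h0
    have : (P.map i).natDegree = ℓ := by
      rw [hP, Polynomial.map_sub, Polynomial.map_pow, Polynomial.map_X]
      exact FiniteField.X_pow_card_sub_X_natDegree_eq L (Fact.out : ℓ.Prime).one_lt
    rw [h0, natDegree_zero] at this
    exact (Fact.out : ℓ.Prime).ne_zero this.symm
  have hcroot : c ∈ (P.map i).roots := by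
    rw [mem_roots hP0, IsRoot, hP, Polynomial.map_sub, Polynomial.map_pow, Polynomial.map_X,
      eval_sub, eval_pow, eval_X, hc, sub_self]
  rw [hmap, hroots] at hcroot
  obtain ⟨a, -, ha⟩ := Multiset.mem_map.mp hcroot
  exact ⟨a, ha.symm⟩

/-! ### The theorem -/

section main

variable (p : ℕ) [Fact p.Prime] (ℓ : ℕ) [Fact ℓ.Prime]

/-- **(E2).**  For primes `ℓ ∤ p` (i.e. `ℓ ≠ p`), a solution `φ ∈ 𝔽_ℓ((q))` of the Artin–Schreier
equation `φ ^ ℓ - φ + 1/j̄ = 0` does not lie in `𝔽_ℓ(j̄, j̄_p)`. -/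
theorem not_mem_fieldC (hℓp : ¬ ℓ ∣ p) {φ : LaurentSeries (ZMod ℓ)}
    (hAS : φ ^ ℓ - φ + (jqModC (ZMod ℓ))⁻¹ = 0) : φ ∉ modularFunctionFieldC (ZMod ℓ) p := by
  intro hmem
  set k := kRes ℓ with hk
  set S := sysK p ℓ hℓp with hS
  set ι : ZMod ℓ →+* k := ZMod.castHom (dvd_refl ℓ) k with hι
  set τ : LaurentSeries (ZMod ℓ) →+* LaurentSeries k := ExportE2.transfer ι p with hτ
  have hp2 : 2 ≤ p := (Fact.out : p.Prime).two_le
  have hℓ2 : 2 ≤ ℓ := (Fact.out : ℓ.Prime).two_le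
  -- the embedding of `k(X)`
  have hφinj : Function.Injective (evalJ (jt k p)) := evalJ_injective (CoreField.order_jt_neg k p)
  set ψ : RatFunc k →+* LaurentSeries k := IsFractionRing.lift hφinj with hψdef
  have hψ : ∀ a : k[X], ψ (algebraMap k[X] (RatFunc k) a) = evalJ (jt k p) a :=
    IsFractionRing.lift_algebraMap hφinj
  have hψX : ψ RatFunc.X = jt k p := by
    rw [← RatFunc.algebraMap_X, hψ, evalJ_X]
  set L0 : Subfield (LaurentSeries k) := (qExpand k p).fieldRange with hL0def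
  have hL0 : ∀ y ∈ L0, y ≠ 0 → (p : ℤ) ∣ y.order := fun y hy hy0 =>
    dvd_order_of_mem_fieldRange p hy hy0
  have hψL0 : ∀ r, ψ r ∈ L0 := fun r => by
    rw [← RatFunc.num_div_denom r, map_div₀, hψ, hψ, evalJ_jt, evalJ_jt]
    exact L0.div_mem ⟨_, rfl⟩ ⟨_, rfl⟩
  -- the polynomial
  set Ψ : (RatFunc k)[X] := S.Φ.map (algebraMap k[X] (RatFunc k)) with hΨ
  have hirr : Irreducible Ψ := CoreField.irreducible_of_conjSystem S
  have hdeg : Ψ.natDegree = p + 1 := by
    rw [hΨ, S.hΦ_monic.natDegree_map, Core.natDegree_Φ S, Core.card_Q,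
      dedekindPsi_prime Fact.out]
  have hroot : ∀ s : Q p, Ψ.eval₂ ψ (S.x s) = 0 := fun s => by
    have hcomp : ψ.comp (algebraMap k[X] (RatFunc k)) = evalJt k p := by
      rw [CoreField.evalJt_eq_evalJ]
      exact RingHom.ext hψ
    rw [hΨ, eval₂_map, hcomp, ← eval_map, S.hΦ, eval_prod]
    exact Finset.prod_eq_zero (Finset.mem_univ s) (by rw [eval_sub, eval_X, eval_C, sub_self])
  obtain ⟨s1, hs1⟩ := exists_ne_s0 p ℓ hℓp
  have hx1 : (S.x s1).order = -1 := order_x_of_ne p ℓ hℓp hs1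
  have hx1ne : S.x s1 ≠ 0 := by
    intro h0
    rw [h0, HahnSeries.order_zero] at hx1
    norm_num at hx1
  -- the transferred series
  have hτφ : τ φ ∈ L0 := ⟨_, rfl⟩
  have hτAS : τ φ ^ ℓ - τ φ + (ψ RatFunc.X)⁻¹ = 0 := by
    have := congrArg τ hAS
    rw [map_zero, map_add, map_sub, map_pow, map_inv₀, hτ, ExportE2.transfer_jq, ← hτ] at this
    rw [hψX]
    exact this
  have hrootsAS : ∀ y : LaurentSeries k, y ^ ℓ - y + (ψ RatFunc.X)⁻¹ = 0 → y - τ φ ∈ L0 := by
    intro y hy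
    have : CharP (LaurentSeries k) ℓ := by
      have hinj : Function.Injective (algebraMap k (LaurentSeries k)) :=
        (algebraMap k (LaurentSeries k)).injective
      exact charP_of_injective_algebraMap hinj ℓ
    have hc : (y - τ φ) ^ ℓ = y - τ φ := by
      rw [sub_pow_char]
      linear_combination hy - hτAS
    obtain ⟨a, ha⟩ := exists_zmod_of_pow_eq_self ℓ hc
    rw [ha]
    obtain ⟨n, rfl⟩ := ZMod.natCast_zmod_surjective a
    rw [map_natCast]
    exact natCast_mem L0 n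
  have h0 := hroot S.s0
  have hnot := ASCore.AS_not_mem_range hp2 ψ L0 hL0 hψL0 Ψ hirr hdeg (S.x S.s0) (S.x s1) h0
    (hroot s1) hx1 hx1ne hℓ2 (τ φ) hτφ hτAS hrootsAS
  apply hnot
  -- `τ` maps the function field into the range
  set σ0 := AdjoinRoot.lift ψ (S.x S.s0) h0 with hσ0
  have : Fact (Irreducible Ψ) := ⟨hirr⟩
  have hle : (modularFunctionFieldC (ZMod ℓ) p).toSubfield ≤ σ0.fieldRange.comap τ := by
    rw [modularFunctionFieldC, IntermediateField.adjoin_toSubfield, Subfield.closure_le]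
    rintro y (⟨c, rfl⟩ | hy)
    · -- constants
      refine ⟨AdjoinRoot.of Ψ (RatFunc.C (ι c)), ?_⟩
      rw [hσ0, AdjoinRoot.lift_of, ← RatFunc.algebraMap_C, hψ, evalJ_C,
        algebraMap_laurentSeries_eq_single, hτ, ExportE2.transfer]
      simp [coeffMap_single]
    · rcases hy with rfl | hy
      · refine ⟨AdjoinRoot.of Ψ RatFunc.X, ?_⟩
        rw [hσ0, AdjoinRoot.lift_of, hψX, hτ, ExportE2.transfer_jq]
      · rw [Set.mem_singleton_iff] at hy
        subst hy
        refine ⟨AdjoinRoot.root Ψ, ?_⟩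
        rw [hσ0, AdjoinRoot.lift_root, S.hx0, hτ, ExportE2.transfer_jqN]
  exact hle hmem

/-- for a prime level the full function field is `𝔽(j̄, j̄_p)` -/
theorem fieldFullC_le_fieldC (K : Type*) [Field K] :
    modularFunctionFieldFullC K p ≤ modularFunctionFieldC K p := by
  rw [modularFunctionFieldFullC, IntermediateField.adjoin_le_iff]
  rintro x ⟨d, hne, hdvd, rfl⟩
  rcases (Nat.dvd_prime (Fact.out : p.Prime)).mp hdvd with h | h
  · subst h
    rw [qExpand_one_apply]
    exact jqModC_mem K p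
  · subst h
    exact jqNModC_mem K d

theorem not_mem_fieldFullC (hℓp : ¬ ℓ ∣ p) {φ : LaurentSeries (ZMod ℓ)}
    (hAS : φ ^ ℓ - φ + (jqModC (ZMod ℓ))⁻¹ = 0) : φ ∉ modularFunctionFieldFullC (ZMod ℓ) p :=
  fun h => not_mem_fieldC p ℓ hℓp hAS (fieldFullC_le_fieldC p (ZMod ℓ) h)

end main

end

end Fermat.Agent.S16.Three.NotInK
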