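import Mathlib
import Fermat.Agent.S16.Three.Series
import Fermat.Agent.S16.Three.NotInK
import Fermat.Agent.S16.Estar

set_option autoImplicit false

/-!
# S16 / Three (E4): the endgame for `ℓ = 3`, `p ≡ 2 mod 3`

If both `φ̄ - φ̄(q^p)` and the reduction `ḡ` of a series with `a_n ≡ σ'_p(n) mod 3` lie in
`K = 𝔽₃(j̄, j̄_p)`, then `φ̄ ∈ K`, contradicting `NotInK.not_mem_fieldC`.
-/

namespace Fermat.Agent.S16.Three.Main

open ModularCurve Fermat.Agent.S16.Three.Series Fermat.Agent.S16.Estar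
open scoped ArithmeticFunction.sigma

noncomputable section

variable (p : ℕ) [Fact p.Prime]

/-- `φ̄(q^p)` as the image of a power series -/
theorem qExpand_phib :
    qExpand (ZMod 3) p phib =
      toL3 (PowerSeries.expand p (NeZero.ne p) (red3 phiZ)) := by
  rw [phib, ofPowerSeries_expand]

/-- coefficientwise: `σ'_p(n) ≡ σ(n) + σ(n/p) mod 3` when `p ≡ 2 mod 3` -/
theorem sigmaPrime_mod_three (hp : p % 3 = 2) (n : ℕ) :
    ((sigmaPrime p n : ℕ) : ZMod 3) =
      ((σ 1 n : ℕ) : ZMod 3) + (if p ∣ n then ((σ 1 (n / p) : ℕ) : ZMod 3) else 0) := by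
  have h := sigma_eq_sigmaPrime_add p n
  have hp3 : ((p : ℕ) : ZMod 3) = -1 := by
    have : ((p : ℕ) : ZMod 3) = ((p % 3 : ℕ) : ZMod 3) := by
      rw [ZMod.natCast_mod]
    rw [this, hp]
    decide
  have h' := congrArg (fun x : ℕ => (x : ZMod 3)) h
  split_ifs at h' ⊢ with hd
  · push_cast at h'
    rw [hp3] at h'
    linear_combination -h'
  · push_cast at h'
    rw [add_zero] at h' ⊢
    exact h'.symm

/-- the reduction of `∑ σ'_p(n) qⁿ` is `φ̄ + φ̄(q^p)` when `p ≡ 2 mod 3` -/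
theorem series_eq (hp : p % 3 = 2) (a : ℕ → ℤ) (ha0 : ((a 0 : ℤ) : ZMod 3) = 0)
    (ha : ∀ n, 1 ≤ n → ((a n : ℤ) : ZMod 3) = ((sigmaPrime p n : ℕ) : ZMod 3)) :
    toL3 (PowerSeries.mk fun n => ((a n : ℤ) : ZMod 3)) = phib + qExpand (ZMod 3) p phib := by
  rw [qExpand_phib, phib, ← map_add]
  congr 1
  ext n
  rw [PowerSeries.coeff_mk, map_add, PowerSeries.coeff_map]
  rcases Nat.eq_zero_or_pos n with rfl | hn
  · rw [ha0]
    have h0 : PowerSeries.coeff 0 (PowerSeries.expand p (NeZero.ne p) (red3 phiZ)) =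
        PowerSeries.coeff 0 (red3 phiZ) := by
      have := PowerSeries.coeff_expand_mul p (NeZero.ne p) (red3 phiZ) 0
      simpa using this
    rw [h0, PowerSeries.coeff_map, phiZ, coeff_sigSer]
    simp
  · rw [ha n hn, sigmaPrime_mod_three p hp n, phiZ, coeff_sigSer]
    congr 1
    split_ifs with hd
    · obtain ⟨m, rfl⟩ := hd
      rw [PowerSeries.coeff_expand_mul, PowerSeries.coeff_map, coeff_sigSer,
        Nat.mul_div_cancel_left _ (Nat.pos_of_ne_zero (NeZero.ne p))]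
      simp
    · rw [PowerSeries.coeff_expand_of_not_dvd _ _ _ hd]

/-- **(E4).** -/
theorem false_of_mem (hp : p % 3 = 2)
    (h1 : phib - qExpand (ZMod 3) p phib ∈ modularFunctionFieldC (ZMod 3) p)
    (a : ℕ → ℤ) (ha0 : ((a 0 : ℤ) : ZMod 3) = 0)
    (ha : ∀ n, 1 ≤ n → ((a n : ℤ) : ZMod 3) = ((sigmaPrime p n : ℕ) : ZMod 3))
    (h2 : toL3 (PowerSeries.mk fun n => ((a n : ℤ) : ZMod 3)) ∈ modularFunctionFieldC (ZMod 3) p) :
    False := by
  rw [series_eq p hp a ha0 ha] at h2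
  have h3p : ¬ 3 ∣ p := by
    intro h
    have := Nat.mod_eq_zero_of_dvd h
    omega
  have hsum := (modularFunctionFieldC (ZMod 3) p).add_mem h1 h2
  have h2phi : phib - qExpand (ZMod 3) p phib + (phib + qExpand (ZMod 3) p phib) =
      (2 : LaurentSeries (ZMod 3)) * phib := by ring
  rw [h2phi] at hsum
  have h22 : (2 : LaurentSeries (ZMod 3)) * 2 = 1 := by
    have : (2 : ZMod 3) * 2 = 1 := by decide
    have h := congrArg (algebraMap (ZMod 3) (LaurentSeries (ZMod 3))) this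
    rw [map_mul, map_ofNat, map_one] at h
    exact h
  have hphi : phib ∈ modularFunctionFieldC (ZMod 3) p := by
    have h2mem : (2 : LaurentSeries (ZMod 3)) ∈ modularFunctionFieldC (ZMod 3) p := by
      have := (modularFunctionFieldC (ZMod 3) p).algebraMap_mem (2 : ZMod 3)
      rwa [map_ofNat] at this
    have h4 := (modularFunctionFieldC (ZMod 3) p).mul_mem h2mem hsum
    rw [← mul_assoc, h22, one_mul] at h4
    exact h4
  refine NotInK.not_mem_fieldC p 3 h3p (φ := phib) ?_ hphi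
  rw [phib_cube_sub_self]
  ring

end

end Fermat.Agent.S16.Three.Main
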