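import Mathlib
import Fermat.Agent.S16.Three.Main
import Fermat.Agent.S16.Three.Functions
import Fermat.Agent.S16.LevelOne.UpperThreeCore

set_option autoImplicit false

/-!
# S16 / Three (E5): the `ℓ = 3` obstruction in the shape consumed by `LevelOne/UpperThree`

For a prime `p ≡ 2 mod 3` no cusp form of weight `2` on `Γ₀(p)` has an integral `q`-expansion congruent
to `∑ σ*(n) qⁿ` modulo `3`.
-/

namespace Fermat.Agent.S16.Three.Final

open UpperHalfPlane ModularFormClass
open Fermat.Agent.S20 Fermat.Agent.S16.Estar Fermat.Agent.S16.LevelOne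

theorem noCuspFormModThree (p : ℕ) [Fact p.Prime] (hp : p % 3 = 2) :
    UpperThreeCore.NoCuspFormModThree p := by
  intro g hg a ha hcong
  have hp3 : p ≠ 3 := by
    rintro rfl
    omega
  have h1 := Functions.phib_sub_mem' p hp3
  have h2 := Functions.cuspForm_red_mem p hp3 hg a ha
  have ha0 : ((a 0 : ℤ) : ZMod 3) = 0 := by
    have h0 : ((a 0 : ℤ) : ℂ) = 0 := by
      rw [← ha 0]
      exact UpperTwoCore.qCoeff_zero_of_isCF hg
    have : a 0 = 0 := by exact_mod_cast h0
    rw [this, Int.cast_zero]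
  have han : ∀ n, 1 ≤ n → ((a n : ℤ) : ZMod 3) = ((sigmaPrime p n : ℕ) : ZMod 3) := by
    intro n hn
    have hd := hcong n hn
    have h3 : ((a n - (sigmaStar p n : ℤ) : ℤ) : ZMod 3) = 0 :=
      (ZMod.intCast_zmod_eq_zero_iff_dvd _ 3).mpr (by exact_mod_cast hd)
    rw [Int.cast_sub, sub_eq_zero] at h3
    rw [h3, sigmaStar_eq_sigmaPrime]
    simp
  exact Main.false_of_mem p hp h1 a ha0 han h2

end Fermat.Agent.S16.Three.Final
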